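import Mathlib
import Fermat.Agent.S21.ParabolicDim

/-!
# S16 (L5a): the char-free Shapiro bound (helper5)

For every field `k` (any characteristic) and every finite-index subgroup `Γ ≤ SL(2, ℤ)` containing
`-1`, the `k`-space `homsPE k Γ` of additive characters `Γ → k` killing all elements with
`trace² = 4` and all elements of finite order satisfies
`finrank + #orbits(S) + #orbits(S T) + #orbits(T) ≤ [SL(2, ℤ) : Γ] + 2`,
the orbits being taken on `SL(2, ℤ) ⧸ Γ`.  This is the characteristic-free version of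
`Fermat.Agent.S21.ParabolicDim.finrank_parabolicHoms_add_orbits_le` (whose `coc`, `cocElt`,
`shapiroMap`, ... are reused).
-/

set_option autoImplicit false
set_option linter.unusedSectionVars false
set_option linter.style.haveILetI false

namespace Fermat.Agent.S16.Lift5

open Module Fermat.Agent.S21.ParabolicDim

section AbstractCF

variable {k V : Type*} [Field k] [AddCommGroup V] [Module k V]
variable (S U T : Module.End k V)

/-- `(a, b) ↦ [S (b - a)]` in `V ⧸ range (T - 1)`. -/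
def thetaQ : V × V →ₗ[k] V ⧸ LinearMap.range (T - 1) :=
  ((LinearMap.range (T - 1)).mkQ ∘ₗ S) ∘ₗ (LinearMap.snd k V V - LinearMap.fst k V V)

theorem thetaQ_apply (p : V × V) :
    thetaQ S T p = (LinearMap.range (T - 1)).mkQ (S (p.2 - p.1)) := rfl

/-- The space of pairs `(a, b)` with `a ∈ range (S - 1)`, `b ∈ range (U - 1)`. -/
def pairSpaceCF : Submodule k (V × V) :=
  (LinearMap.range (S - 1)).prod (LinearMap.range (U - 1))

/-- The char-free constraint space. -/
def constraintSpaceCF : Submodule k (V × V) :=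
  pairSpaceCF S U ⊓ LinearMap.ker (thetaQ S T)

theorem range_cobMap_le_CF (hS : S ^ 2 = 1) (hUST : U = S * T) :
    LinearMap.range (cobMap S U) ≤ constraintSpaceCF S U T := by
  rintro _ ⟨v, rfl⟩
  refine ⟨⟨⟨v, rfl⟩, ⟨v, rfl⟩⟩, ?_⟩
  show thetaQ S T (cobMap S U v) = 0
  rw [thetaQ_apply]
  show (LinearMap.range (T - 1)).mkQ (S ((U - 1) v - (S - 1) v)) = 0
  have h1 : S ((U - 1) v - (S - 1) v) = (T - 1) v := by
    have hSS : ∀ w : V, S (S w) = w := by
      intro w
      have := congrArg (fun f : Module.End k V => f w) hS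
      simpa [pow_two, Module.End.mul_apply] using this
    simp only [LinearMap.sub_apply, Module.End.one_apply, map_sub, hUST, Module.End.mul_apply,
      hSS]
    abel
  rw [h1, Submodule.mkQ_apply, Submodule.Quotient.mk_eq_zero]
  exact ⟨v, rfl⟩

theorem finrank_constraintSpaceCF_le [FiniteDimensional k V] (hS : S ^ 2 = 1) :
    finrank k (constraintSpaceCF S U T) + finrank k (LinearMap.ker (T - 1))
        + finrank k ↥(LinearMap.range (1 - S) ⊔ LinearMap.range (1 - U))
      ≤ finrank k (LinearMap.range (S - 1)) + finrank k (LinearMap.range (U - 1))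
        + finrank k V := by
  set W : Submodule k V := LinearMap.range (1 - S) ⊔ LinearMap.range (1 - U) with hW
  set f : V →ₗ[k] V ⧸ LinearMap.range (T - 1) := (LinearMap.range (T - 1)).mkQ ∘ₗ S with hf
  have h1 := finrank_inf_ker_add_finrank_map (thetaQ S T) (pairSpaceCF S U)
  have h2 : finrank k ↥(pairSpaceCF S U) =
      finrank k (LinearMap.range (S - 1)) + finrank k (LinearMap.range (U - 1)) :=
    finrank_prod_submodule _ _
  have h3 : W.map f ≤ (pairSpaceCF S U).map (thetaQ S T) := by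
    rintro _ ⟨w, hw, rfl⟩
    obtain ⟨w1, hw1, w2, hw2, rfl⟩ := Submodule.mem_sup.mp hw
    obtain ⟨v1, rfl⟩ := hw1
    obtain ⟨v2, rfl⟩ := hw2
    refine ⟨((S - 1) v1, (S - 1) v1 + ((1 - S) v1 + (1 - U) v2)), ⟨⟨v1, rfl⟩, ?_⟩, ?_⟩
    · refine ⟨-v2, ?_⟩
      simp only [map_neg, LinearMap.sub_apply, Module.End.one_apply]
      abel
    · rw [thetaQ_apply]
      show (LinearMap.range (T - 1)).mkQ (S ((S - 1) v1 + ((1 - S) v1 + (1 - U) v2) - (S - 1) v1))
        = f ((1 - S) v1 + (1 - U) v2)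
      rw [add_sub_cancel_left]
      rfl
  have h4 : finrank k ↥(W.map f) ≤ finrank k ↥((pairSpaceCF S U).map (thetaQ S T)) :=
    Submodule.finrank_mono h3
  have h5 := finrank_range_add_le f W
  have hSsurj : Function.Surjective S := by
    intro v
    refine ⟨S v, ?_⟩
    have := congrArg (fun f : Module.End k V => f v) hS
    simpa [pow_two, Module.End.mul_apply] using this
  have h6 : LinearMap.range f = ⊤ := by
    rw [hf, LinearMap.range_comp, LinearMap.range_eq_top.mpr hSsurj, Submodule.map_top,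
      Submodule.range_mkQ]
  have h7 : finrank k (LinearMap.range f) = finrank k (LinearMap.ker (T - 1)) := by
    rw [h6, finrank_top]
    have ha := Submodule.finrank_quotient_add_finrank (LinearMap.range (T - 1))
    have hb := LinearMap.finrank_range_add_finrank_ker (T - 1)
    omega
  have h8 : constraintSpaceCF S U T = pairSpaceCF S U ⊓ LinearMap.ker (thetaQ S T) := rfl
  rw [h8]
  omega

/-- The abstract char-free dimension bound. -/
theorem abstract_bound_CF [FiniteDimensional k V] (hS : S ^ 2 = 1) (hUST : U = S * T)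
    (P : Submodule k (V × V)) (hP : P ≤ constraintSpaceCF S U T)
    (hdisj : Disjoint P (LinearMap.range (cobMap S U))) :
    finrank k P + finrank k (LinearMap.ker (S - 1)) + finrank k (LinearMap.ker (U - 1))
        + finrank k (LinearMap.ker (T - 1))
        + finrank k ↥(LinearMap.range (1 - S) ⊔ LinearMap.range (1 - U))
      ≤ 2 * finrank k V + finrank k ↥(LinearMap.ker (S - 1) ⊓ LinearMap.ker (U - 1)) := by
  have hB := range_cobMap_le_CF S U T hS hUST
  have h1 : finrank k P + finrank k (LinearMap.range (cobMap S U))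
      ≤ finrank k (constraintSpaceCF S U T) := by
    have h := Submodule.finrank_sup_add_finrank_inf_eq P (LinearMap.range (cobMap S U))
    rw [hdisj.eq_bot, finrank_bot, add_zero] at h
    rw [← h]
    exact Submodule.finrank_mono (sup_le hP hB)
  have h2 := LinearMap.finrank_range_add_finrank_ker (cobMap S U)
  have h3 : LinearMap.ker (cobMap S U) = LinearMap.ker (S - 1) ⊓ LinearMap.ker (U - 1) :=
    LinearMap.ker_prod _ _
  rw [h3] at h2
  have h4 := LinearMap.finrank_range_add_finrank_ker (S - 1)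
  have h5 := LinearMap.finrank_range_add_finrank_ker (U - 1)
  have h6 := finrank_constraintSpaceCF_le S U T hS
  omega

end AbstractCF

section Cycle

variable {G : Type*} [Group G] (H : Subgroup G) {A : Type*} [AddCommGroup A]

/-- Two group elements moving `x` to the same point have the same Shapiro cocycle value at `x`,
provided `φ` kills the relevant conjugate of their quotient. -/
theorem coc_eq_of_smul_eq (φ : Additive H →+ A) {a b : G} {x : G ⧸ H}
    (hab : a⁻¹ • x = b⁻¹ • x)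
    (hkill : ∀ hm : (rep H (a⁻¹ • x))⁻¹ * (b⁻¹ * a) * rep H (a⁻¹ • x) ∈ H,
      φ (Additive.ofMul ⟨_, hm⟩) = 0) :
    coc H φ a x = coc H φ b x := by
  have hmem : (rep H (a⁻¹ • x))⁻¹ * (b⁻¹ * a) * rep H (a⁻¹ • x) ∈ H := by
    have h1 := cocElt_mem H a x
    have h2 := cocElt_mem H b x
    rw [← hab] at h2
    have h3 := H.mul_mem (H.inv_mem h2) h1
    convert h3 using 1
    group
  have hElt : cocElt H a x = cocElt H b x * ⟨_, hmem⟩ := by
    apply Subtype.ext
    simp only [cocElt, Subgroup.coe_mul, ← hab]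
    group
  unfold coc
  rw [hElt, ofMul_mul, map_add, hkill hmem, add_zero]

/-- **Cycle lemma.**  If `φ` kills every conjugate `r_y⁻¹ g^m r_y` lying in `H`, then the Shapiro
cocycle of `φ` at `g` is a coboundary for the cyclic group generated by `g`:
`coc φ g x = b (g⁻¹ • x) - b x`. -/
theorem exists_cob_of_kills_conj_zpow (φ : Additive H →+ A) (g : G)
    (hkill : ∀ (m : ℤ) (y : G ⧸ H) (hm : (rep H y)⁻¹ * g ^ m * rep H y ∈ H),
      φ (Additive.ofMul ⟨_, hm⟩) = 0) :
    ∃ b : G ⧸ H → A, ∀ x, coc H φ g x = b (g⁻¹ • x) - b x := by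
  classical
  let Ω := MulAction.orbitRel.Quotient (Subgroup.zpowers g) (G ⧸ H)
  let π : G ⧸ H → Ω := Quotient.mk''
  let base : Ω → G ⧸ H := Quotient.out
  have hex : ∀ x : G ⧸ H, ∃ j : ℤ, (g ^ j)⁻¹ • base (π x) = x := by
    intro x
    have h : MulAction.orbitRel (Subgroup.zpowers g) (G ⧸ H) (base (π x)) x :=
      Quotient.exact (Quotient.out_eq (π x))
    rw [MulAction.orbitRel_apply] at h
    obtain ⟨⟨h', hh'⟩, hx⟩ := h
    obtain ⟨j, rfl⟩ := Subgroup.mem_zpowers_iff.mp hh'
    refine ⟨j, ?_⟩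
    have hx' : g ^ j • x = base (π x) := hx
    rw [← hx', inv_smul_smul]
  choose j hj using hex
  refine ⟨fun x => coc H φ (g ^ j x) (base (π x)), fun x => ?_⟩
  have hπ : π (g⁻¹ • x) = π x := by
    apply Quotient.sound'
    rw [MulAction.orbitRel_apply]
    exact ⟨⟨g⁻¹, Subgroup.inv_mem _ (Subgroup.mem_zpowers g)⟩, rfl⟩
  have hj' := hj (g⁻¹ • x)
  show coc H φ g x = coc H φ (g ^ j (g⁻¹ • x)) (base (π (g⁻¹ • x))) - coc H φ (g ^ j x) (base (π x))
  rw [hπ] at hj' ⊢
  set x₀ := base (π x) with hx₀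
  have hjx := hj x
  -- `g ^ (j x + 1)` moves `x₀` to `g⁻¹ • x` as well
  have h1 : coc H φ (g ^ (j x + 1)) x₀ = coc H φ (g ^ j x) x₀ + coc H φ g x := by
    rw [zpow_add_one, coc_mul, hjx]
  have h2 : coc H φ (g ^ j (g⁻¹ • x)) x₀ = coc H φ (g ^ (j x + 1)) x₀ := by
    apply coc_eq_of_smul_eq
    · rw [hj', zpow_add_one, mul_inv_rev, mul_smul, hjx]
    · have hz : (g ^ (j x + 1))⁻¹ * g ^ (j (g⁻¹ • x)) = g ^ (j (g⁻¹ • x) - (j x + 1)) := by
        rw [← zpow_neg, ← zpow_add]
        congr 1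
        ring
      rw [hz]
      intro hm
      exact hkill _ _ hm
  rw [h2, h1]
  abel

end Cycle

section MainGeneralCF

variable (k : Type*) [Field k] {G : Type*} [Group G] (H : Subgroup G) [H.FiniteIndex]

/-- Under the hypothesis of the cycle lemma, `coc φ g ∈ range (act g - 1)`. -/
theorem coc_mem_range_act_sub_one (φ : Additive H →+ k) (g : G)
    (hkill : ∀ (m : ℤ) (y : G ⧸ H) (hm : (rep H y)⁻¹ * g ^ m * rep H y ∈ H),
      φ (Additive.ofMul ⟨_, hm⟩) = 0) :
    coc H φ g ∈ LinearMap.range (act k g - 1 : Module.End k (G ⧸ H → k)) := by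
  obtain ⟨b, hb⟩ := exists_cob_of_kills_conj_zpow H φ g hkill
  refine ⟨b, ?_⟩
  funext x
  rw [hb x]
  rfl

/-- The general char-free dimension bound for additive characters of a finite-index subgroup `H`
of a group generated by `s` and `u = s * t`, with `s² = u³ = z` central and in `H`: a space `P` of
characters killing all conjugates of powers of `s`, `u`, `t` lying in `H` has
`dim P + #orbits(s) + #orbits(u) + #orbits(t) ≤ [G : H] + 2`. -/
theorem general_bound_CF {s u t z : G} (hust : u = s * t) (hs2 : s ^ 2 = z)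
    (hzH : z ∈ H) (hzc : ∀ g : G, g * z = z * g) (hgen : Subgroup.closure {s, u} = ⊤)
    (P : Submodule k (Additive H →+ k))
    (hPs : ∀ φ ∈ P, ∀ (m : ℤ) (y : G ⧸ H) (hm : (rep H y)⁻¹ * s ^ m * rep H y ∈ H),
      φ (Additive.ofMul ⟨_, hm⟩) = 0)
    (hPu : ∀ φ ∈ P, ∀ (m : ℤ) (y : G ⧸ H) (hm : (rep H y)⁻¹ * u ^ m * rep H y ∈ H),
      φ (Additive.ofMul ⟨_, hm⟩) = 0)
    (hPt : ∀ φ ∈ P, ∀ (m : ℤ) (y : G ⧸ H) (hm : (rep H y)⁻¹ * t ^ m * rep H y ∈ H),
      φ (Additive.ofMul ⟨_, hm⟩) = 0) :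
    Module.Finite k (Additive H →+ k) ∧
    finrank k P + Nat.card (MulAction.orbitRel.Quotient (Subgroup.zpowers s) (G ⧸ H))
      + Nat.card (MulAction.orbitRel.Quotient (Subgroup.zpowers u) (G ⧸ H))
      + Nat.card (MulAction.orbitRel.Quotient (Subgroup.zpowers t) (G ⧸ H))
      ≤ H.index + 2 := by
  classical
  haveI : Finite (G ⧸ H) := Subgroup.finite_quotient_of_finiteIndex
  set S : Module.End k (G ⧸ H → k) := act k s with hSdef
  set U : Module.End k (G ⧸ H → k) := act k u with hUdef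
  set T : Module.End k (G ⧸ H → k) := act k t with hTdef
  have hzfix : ∀ x : G ⧸ H, z • x = x := central_fixes H hzH hzc
  have hS : S ^ 2 = 1 := by
    rw [hSdef, ← act_pow, hs2]; exact act_eq_one_of_fixes k H hzfix
  have hUST : U = S * T := by rw [hUdef, hust, act_mul]
  have hSS : ∀ w : G ⧸ H → k, S (S w) = w := by
    intro w
    have := congrArg (fun f : Module.End k (G ⧸ H → k) => f w) hS
    simpa [pow_two, Module.End.mul_apply] using this
  set Ψ := shapiroMap k H s u with hΨdef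
  have hΨ : Function.Injective Ψ := shapiroMap_injective k H hgen
  have hfin : Module.Finite k (Additive H →+ k) := Module.Finite.of_injective Ψ hΨ
  refine ⟨hfin, ?_⟩
  set P' : Submodule k ((G ⧸ H → k) × (G ⧸ H → k)) := P.map Ψ with hP'def
  have hP' : P' ≤ constraintSpaceCF S U T := by
    rintro _ ⟨φ, hφ, rfl⟩
    refine ⟨⟨?_, ?_⟩, ?_⟩
    · exact coc_mem_range_act_sub_one k H φ s (hPs φ hφ)
    · exact coc_mem_range_act_sub_one k H φ u (hPu φ hφ)
    · show thetaQ S T (coc H φ s, coc H φ u) = 0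
      rw [thetaQ_apply]
      have h1 : coc H φ u - coc H φ s = S (coc H φ t) := by
        rw [hust, coc_mul']; abel
      show (LinearMap.range (T - 1)).mkQ (S (coc H φ u - coc H φ s)) = 0
      rw [h1, hSS, Submodule.mkQ_apply, Submodule.Quotient.mk_eq_zero]
      exact coc_mem_range_act_sub_one k H φ t (hPt φ hφ)
  have hdisj : Disjoint P' (LinearMap.range (cobMap S U)) := by
    rw [Submodule.disjoint_def]
    rintro _ ⟨φ, _, rfl⟩ ⟨v, hv⟩
    have hv1 : coc H φ s = act k s v - v := by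
      have := congrArg Prod.fst hv
      rw [hΨdef, shapiroMap_apply] at this
      simpa [cobMap, hSdef] using this.symm
    have hv2 : coc H φ u = act k u v - v := by
      have := congrArg Prod.snd hv
      rw [hΨdef, shapiroMap_apply] at this
      simpa [cobMap, hUdef] using this.symm
    have : φ = 0 := eq_zero_of_coc_eq_cob k H φ hgen v hv1 hv2
    rw [this, map_zero]
  have hmain := abstract_bound_CF S U T hS hUST P' hP' hdisj
  have e1 : finrank k P' = finrank k P :=
    (Submodule.equivMapOfInjective Ψ hΨ P).finrank_eq.symm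
  have e2 : finrank k (LinearMap.ker (S - 1)) =
      Nat.card (MulAction.orbitRel.Quotient (Subgroup.zpowers s) (G ⧸ H)) :=
    finrank_ker_act_sub_one k s
  have e3 : finrank k (LinearMap.ker (U - 1)) =
      Nat.card (MulAction.orbitRel.Quotient (Subgroup.zpowers u) (G ⧸ H)) :=
    finrank_ker_act_sub_one k u
  have e4 : finrank k (LinearMap.ker (T - 1)) =
      Nat.card (MulAction.orbitRel.Quotient (Subgroup.zpowers t) (G ⧸ H)) :=
    finrank_ker_act_sub_one k t
  have e5 : finrank k ↥(LinearMap.ker (S - 1) ⊓ LinearMap.ker (U - 1)) ≤ 1 :=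
    finrank_inf_ker_le_one k hgen
  have e6 : Nat.card (G ⧸ H) ≤ finrank k ↥(LinearMap.range (1 - S) ⊔ LinearMap.range (1 - U)) + 1 :=
    card_le_finrank_sup_range_add_one k hgen
  have e7 : finrank k (G ⧸ H → k) = Nat.card (G ⧸ H) := by
    letI := Fintype.ofFinite (G ⧸ H)
    rw [Module.finrank_fintype_fun_eq_card, Nat.card_eq_fintype_card]
  have e8 : H.index = Nat.card (G ⧸ H) := rfl
  omega

end MainGeneralCF

section SL2CF

open scoped MatrixGroups
open ModularGroup ModularCurve.Period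

/-- Additive characters `Γ → R` killing every element with `trace² = 4` (parabolic, `±1`) and every
element of finite order. -/
def homsPE (R : Type*) [Ring R] (Γ : Subgroup SL(2, ℤ)) : Submodule R (Additive Γ →+ R) where
  carrier := {φ | IsParabolicHom Γ φ ∧ ∀ γ : Γ, IsOfFinOrder γ → φ (Additive.ofMul γ) = 0}
  zero_mem' := ⟨fun _ _ => rfl, fun _ _ => rfl⟩
  add_mem' := by
    rintro φ ψ ⟨hφ, hφ'⟩ ⟨hψ, hψ'⟩
    refine ⟨fun γ hγ => ?_, fun γ hγ => ?_⟩
    · show φ (Additive.ofMul γ) + ψ (Additive.ofMul γ) = 0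
      rw [hφ γ hγ, hψ γ hγ, add_zero]
    · show φ (Additive.ofMul γ) + ψ (Additive.ofMul γ) = 0
      rw [hφ' γ hγ, hψ' γ hγ, add_zero]
  smul_mem' := by
    rintro c φ ⟨hφ, hφ'⟩
    refine ⟨fun γ hγ => ?_, fun γ hγ => ?_⟩
    · show c • φ (Additive.ofMul γ) = 0
      rw [hφ γ hγ, smul_zero]
    · show c • φ (Additive.ofMul γ) = 0
      rw [hφ' γ hγ, smul_zero]

theorem mem_homsPE_iff {R : Type*} [Ring R] {Γ : Subgroup SL(2, ℤ)} {φ : Additive Γ →+ R} :
    φ ∈ homsPE R Γ ↔
      IsParabolicHom Γ φ ∧ ∀ γ : Γ, IsOfFinOrder γ → φ (Additive.ofMul γ) = 0 :=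
  Iff.rfl

theorem homsPE_le_parabolicHoms (R : Type*) [Ring R] (Γ : Subgroup SL(2, ℤ)) :
    homsPE R Γ ≤ parabolicHoms R Γ R := fun _ h => h.1

theorem S_pow_four : (S : SL(2, ℤ)) ^ 4 = 1 := by decide

theorem ST_pow_six : ((S : SL(2, ℤ)) * T) ^ 6 = 1 := by decide

/-- A conjugate of a power of a finite-order element has finite order (inside a subgroup). -/
theorem isOfFinOrder_conj_zpow {G : Type*} [Group G] (H : Subgroup G) {g : G} {n : ℕ} (hn : 0 < n)
    (hg : g ^ n = 1) (a : G) (m : ℤ) (hm : a⁻¹ * g ^ m * a ∈ H) :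
    IsOfFinOrder (⟨_, hm⟩ : H) := by
  rw [isOfFinOrder_iff_pow_eq_one]
  refine ⟨n, hn, Subtype.ext ?_⟩
  rw [Subgroup.coe_pow, Subgroup.coe_one]
  show (a⁻¹ * g ^ m * a) ^ n = 1
  have h1 : (a⁻¹ * g ^ m * a) ^ n = a⁻¹ * (g ^ m) ^ n * a := by
    have := conj_pow (a := a⁻¹) (b := g ^ m) (i := n)
    rwa [inv_inv] at this
  rw [h1, ← zpow_natCast, ← zpow_mul, mul_comm, zpow_mul, zpow_natCast, hg, one_zpow, mul_one,
    inv_mul_cancel]

theorem trace_conj_T_zpow (a : SL(2, ℤ)) (m : ℤ) :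
    ((a⁻¹ * T ^ m * a : SL(2, ℤ)) : Matrix (Fin 2) (Fin 2) ℤ).trace = 2 := by
  have h1 : ((a⁻¹ * T ^ m * a : SL(2, ℤ)) : Matrix (Fin 2) (Fin 2) ℤ)
      = ((a⁻¹ : SL(2, ℤ)) : Matrix (Fin 2) (Fin 2) ℤ)
        * ((T ^ m * a : SL(2, ℤ)) : Matrix (Fin 2) (Fin 2) ℤ) := by
    rw [mul_assoc]
    exact Matrix.SpecialLinearGroup.coe_mul _ _
  rw [h1, Matrix.trace_mul_comm, ← Matrix.SpecialLinearGroup.coe_mul, mul_assoc,
    mul_inv_cancel, mul_one, ModularGroup.coe_T_zpow, Matrix.trace_fin_two_of]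
  norm_num

/-- **Char-free Shapiro bound**: for every field `k` and every finite-index subgroup
`Γ ≤ SL(2, ℤ)` containing `-1`,
`dim homsPE + #orbits(S) + #orbits(S T) + #orbits(T) ≤ [SL(2, ℤ) : Γ] + 2`,
the orbits being taken on `SL(2, ℤ) ⧸ Γ`. -/
theorem finrank_homsPE_add_orbits_le (k : Type*) [Field k] (Γ : Subgroup SL(2, ℤ))
    [Γ.FiniteIndex] (hneg : (-1 : SL(2, ℤ)) ∈ Γ) :
    Module.Finite k (Additive Γ →+ k) ∧
    finrank k (homsPE k Γ)
      + Nat.card (MulAction.orbitRel.Quotient (Subgroup.zpowers (S : SL(2, ℤ))) (SL(2, ℤ) ⧸ Γ))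
      + Nat.card (MulAction.orbitRel.Quotient (Subgroup.zpowers ((S : SL(2, ℤ)) * T))
          (SL(2, ℤ) ⧸ Γ))
      + Nat.card (MulAction.orbitRel.Quotient (Subgroup.zpowers (T : SL(2, ℤ))) (SL(2, ℤ) ⧸ Γ))
      ≤ Γ.index + 2 := by
  refine general_bound_CF k Γ (s := S) (u := S * T) (t := T) (z := -1) rfl S_sq hneg
    neg_one_central closure_S_ST (homsPE k Γ) ?_ ?_ ?_
  · intro φ hφ m y hm
    exact hφ.2 _ (isOfFinOrder_conj_zpow Γ (by norm_num : 0 < 4) S_pow_four _ m hm)
  · intro φ hφ m y hm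
    exact hφ.2 _ (isOfFinOrder_conj_zpow Γ (by norm_num : 0 < 6) ST_pow_six _ m hm)
  · intro φ hφ m y hm
    apply hφ.1 ⟨_, hm⟩
    show ((_ : SL(2, ℤ)) : Matrix (Fin 2) (Fin 2) ℤ).trace ^ 2 = 4
    rw [trace_conj_T_zpow]
    norm_num

theorem finite_homsPE (k : Type*) [Field k] (Γ : Subgroup SL(2, ℤ)) [Γ.FiniteIndex]
    (hneg : (-1 : SL(2, ℤ)) ∈ Γ) : Module.Finite k (homsPE k Γ) := by
  haveI := (finrank_homsPE_add_orbits_le k Γ hneg).1
  infer_instance

end SL2CF

end Fermat.Agent.S16.Lift5
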