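import Mathlib
import Fermat.Agent.S16.Lift5.CharFree
import Fermat.Agent.S21.GCBound

/-!
# S16 (L5a): the char-free bound for `Γ₀(N)` (helper5)

`finrank k (homsPE k (Gamma0 N)) ≤ 2 * genusFormula N` for EVERY field `k`, from
`finrank_homsPE_add_orbits_le` and the orbit counts of S24 package COMB (same arithmetic as
`Fermat.Agent.S21.GCBound.finrank_parabolicHoms_le`).
-/

set_option autoImplicit false

open scoped MatrixGroups
open ModularCurve ModularCurve.Period CongruenceSubgroup

namespace Fermat.Agent.S16.Lift5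

open Fermat.Agent.S24 Fermat.Agent.S21

variable (N : ℕ) [NeZero N]

theorem finite_homsPE_Gamma0 (k : Type*) [Field k] : Module.Finite k (homsPE k (Gamma0 N)) :=
  finite_homsPE k (Gamma0 N) (GCBound.neg_one_mem_Gamma0 N)

/-- **Char-free GC for `Γ₀(N)`**: `dim_k homsPE ≤ 2g` for every field `k`. -/
theorem finrank_homsPE_Gamma0_le (k : Type*) [Field k] :
    (Module.finrank k (homsPE k (Gamma0 N)) : ℚ) ≤ 2 * genusFormula N := by
  have h := (finrank_homsPE_add_orbits_le k (Gamma0 N) (GCBound.neg_one_mem_Gamma0 N)).2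
  have hidx : (Gamma0 N).index = dedekindPsi N := card_X0Cosets N
  have hS : 2 * Nat.card (MulAction.orbitRel.Quotient
      (Subgroup.zpowers (ModularGroup.S : SL(2, ℤ))) (SL(2, ℤ) ⧸ Gamma0 N))
      = dedekindPsi N + nuTwo N := two_mul_numOrbits_S N
  have hST : 3 * Nat.card (MulAction.orbitRel.Quotient
      (Subgroup.zpowers ((ModularGroup.S : SL(2, ℤ)) * ModularGroup.T)) (SL(2, ℤ) ⧸ Gamma0 N))
      = dedekindPsi N + 2 * nuThree N := three_mul_numOrbits_ST N
  have hT : Nat.card (MulAction.orbitRel.Quotient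
      (Subgroup.zpowers (ModularGroup.T : SL(2, ℤ))) (SL(2, ℤ) ⧸ Gamma0 N))
      = cuspCount N := numOrbits_T N
  generalize Nat.card (MulAction.orbitRel.Quotient
      (Subgroup.zpowers (ModularGroup.S : SL(2, ℤ))) (SL(2, ℤ) ⧸ Gamma0 N)) = a at h hS
  generalize Nat.card (MulAction.orbitRel.Quotient
      (Subgroup.zpowers ((ModularGroup.S : SL(2, ℤ)) * ModularGroup.T)) (SL(2, ℤ) ⧸ Gamma0 N)) = b
      at h hST
  generalize Nat.card (MulAction.orbitRel.Quotient
      (Subgroup.zpowers (ModularGroup.T : SL(2, ℤ))) (SL(2, ℤ) ⧸ Gamma0 N)) = c at h hT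
  rw [hidx] at h
  subst hT
  have hq : ((Module.finrank k (homsPE k (Gamma0 N)) + a + b + cuspCount N : ℕ) : ℚ)
      ≤ ((dedekindPsi N + 2 : ℕ) : ℚ) := by exact_mod_cast h
  have hSq : (2 : ℚ) * a = dedekindPsi N + nuTwo N := by exact_mod_cast hS
  have hSTq : (3 : ℚ) * b = dedekindPsi N + 2 * nuThree N := by exact_mod_cast hST
  push_cast at hq
  unfold genusFormula
  linarith

end Fermat.Agent.S16.Lift5
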